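import Fermat.Agent.A2.IF.H429.IF

/-!
# S36 / ENGINE leaf UNR (helper493): the inertia field is an unramified good level

`P` a valuation subring of `ℚ̄` over a prime number `q`, `E_I = ℚ̄^{I_P}` the inertia field.
Then `E_I` is a good level for `P` (`A2.GoodField`) and `q` is a uniformiser of `P ∩ E_I`:
every non-unit of `P` in `E_I` is divisible by `q` in `P`.

`unr` is, verbatim after unfolding the two abbreviations `Eng.inertiaFld`, `Eng.Unramified`
(architect helper996, `S36/Eng/{Spec,Top}.lean`), the body of `Eng.InertiaFieldStatement`.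
Everything comes from `A2/IF/H429` (helper429), which is on main.
-/

set_option autoImplicit false
set_option linter.style.haveILetI false
set_option linter.unusedSectionVars false

namespace Fermat.Agent.S36.H493

open Fermat.Agent.A2 Fermat.Agent.A2.IF.H429

/-- The inertia field is a good level. -/
theorem goodField_inertiaField (q : ℕ) (hq : q.Prime) (P : ValuationSubring Qb)
    (hP : P.LiesOverPrime q) :
    GoodField P (IntermediateField.fixedField (P.inertiaSubgroupIn ℚ)) where
  stable := fun τ hτ e he => by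
    have h := (mem_inertiaField_iff P).mp he τ hτ
    rw [h]
    exact he
  dvr := isDiscreteValuationRing_RE_of_pow P q hq hP (inertiaField P) 1 Nat.one_pos
    (fun x hx hx0 => by
      obtain ⟨k, hk⟩ := exists_zpow_of_mem_inertiaField P q hq hP x hx hx0
      refine ⟨k, ?_⟩
      have hq0 : P.valuation ((q : Qb) ^ k) ≠ 0 := by
        rw [map_zpow₀]
        exact zpow_ne_zero _ (valuation_natCast_ne_zero P q hq)
      rw [map_div₀, div_eq_one_iff_eq hq0, map_zpow₀] at hk
      rw [pow_one]
      exact hk)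
  henselian := henselian_RE P (inertiaField P) le_rfl
  algClosed := isAlgClosed_residueField_RE P (inertiaField P) q hq hP le_rfl
  trivial_mod := fun _ hτ _ _ heP => sub_mem_nonunits_of_inertia P hτ heP
  finite_order := fun τ hτ => ⟨1, Nat.one_pos, fun e he => by
    rw [Function.iterate_one]
    exact (mem_inertiaField_iff P).mp he τ hτ⟩

/-- `q` is a uniformiser of `P ∩ E_I`: a non-unit of `P` lying in the inertia field is divisible
by `q` in `P`. -/
theorem mul_inv_natCast_mem (q : ℕ) (hq : q.Prime) (P : ValuationSubring Qb)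
    (hP : P.LiesOverPrime q) (e : Qb) (he : e ∈ inertiaField P) (hen : e ∈ P.nonunits) :
    e * ((q : Qb))⁻¹ ∈ P := by
  by_cases he0 : e = 0
  · rw [he0, zero_mul]
    exact P.zero_mem
  obtain ⟨k, hk⟩ := exists_zpow_of_mem_inertiaField P q hq hP e he he0
  have hqv0 : P.valuation (q : Qb) ≠ 0 := valuation_natCast_ne_zero P q hq
  have hqlt : P.valuation (q : Qb) < 1 := valuation_natCast_lt_one P q hP
  have hq0 : P.valuation ((q : Qb) ^ k) ≠ 0 := by
    rw [map_zpow₀]
    exact zpow_ne_zero _ hqv0
  rw [map_div₀, div_eq_one_iff_eq hq0, map_zpow₀] at hk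
  have helt : P.valuation e < 1 := (ValuationSubring.mem_nonunits_iff P).mp hen
  -- `k ≥ 1`
  have hk1 : 1 ≤ k := by
    by_contra hcon
    have hk0 : k ≤ 0 := by omega
    have h1 : (1 : ValuationSubring.ValueGroup P) ≤ P.valuation (q : Qb) ^ k := by
      obtain ⟨n, rfl⟩ : ∃ n : ℕ, k = -(n : ℤ) := ⟨(-k).toNat, by omega⟩
      rw [zpow_neg, zpow_natCast]
      rw [one_le_inv₀ (pow_pos (zero_lt_iff.mpr hqv0) n)]
      exact pow_le_one' hqlt.le n
    rw [← hk] at h1
    exact absurd helt (not_lt.mpr h1)
  rw [← P.valuation_le_one_iff, map_mul, map_inv₀, hk]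
  obtain ⟨n, rfl⟩ : ∃ n : ℕ, k = (n : ℤ) + 1 := ⟨(k - 1).toNat, by omega⟩
  rw [zpow_add_one₀ hqv0, mul_assoc, mul_inv_cancel₀ hqv0, mul_one, zpow_natCast]
  exact pow_le_one' hqlt.le n

/-- **UNR.**  The inertia field of a place `P` of `ℚ̄` over `q` is an unramified good level.
(Body of `Eng.InertiaFieldStatement`.) -/
theorem unr (q : ℕ) (hq : q.Prime) (P : ValuationSubring Qb) (hP : P.LiesOverPrime q) :
    GoodField P (IntermediateField.fixedField (P.inertiaSubgroupIn ℚ)) ∧
      ∀ e : (IntermediateField.fixedField (P.inertiaSubgroupIn ℚ) : IntermediateField ℚ Qb),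
        (e : Qb) ∈ P.nonunits → (e : Qb) * ((q : Qb))⁻¹ ∈ P :=
  ⟨goodField_inertiaField q hq P hP, fun e hen =>
    mul_inv_natCast_mem q hq P hP (e : Qb) e.2 hen⟩

end Fermat.Agent.S36.H493
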